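/-
S41 / CSP support library (helper98): the reduction map `ℤ[1/q] → ZMod n` (`gcd(q,n) = 1`) in the
landed vocabulary `IsAway` / `IsCongZero` / `IsPrincipal` (Amalgam95 / Ihara95), and its matrix
version.  Main exports:

* `redA n x`, ring-homomorphism properties on `IsAway q`-rationals, `redA_eq_zero_iff`
  (`redA n x = 0 ↔ IsCongZero q n x`);
* `exists_nat_congr` (`ℤ[1/q] / n ℤ[1/q] = ℤ/n`), `isCongZero_int_iff`, `IsCongZero` closure lemmas,
  `isCongZero_mul_of_coprime`;
* `redMat n g`, `redMat_mul`, `redMat_pow`, `redMat_eq_one_iff` (`↔ IsPrincipal q n g`);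
* `isPrincipal_pow_totient_of_diag` : a matrix with entries in `ℤ[1/q]` which is diagonal mod `n`
  has its `φ(n)`-th power `≡ 1 mod n`.
-/
import Mathlib.FieldTheory.Finite.Basic
import Fermat.Agent.S41.Ihara95.Core

set_option autoImplicit false
set_option linter.unusedSectionVars false

namespace Fermat.Agent.S41.AwayRed98

open Matrix Fermat.Agent.S41.Amalgam95 Fermat.Agent.S41.Ihara95

/-! ### `IsAway` basics -/

lemma isAway_natCast (q : ℕ) (m : ℕ) : IsAway q (m : ℚ) := by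
  simpa using IsAway.of_int (q := q) (m : ℤ)

lemma isAway_pow {q : ℕ} {x : ℚ} (hx : IsAway q x) (k : ℕ) : IsAway q (x ^ k) := by
  induction k with
  | zero => simpa using IsAway.one (q := q)
  | succ k ih => rw [pow_succ]; exact ih.mul hx

/-- canonical witness with the natural number `q ^ k`. -/
lemma isAway_iff_exists_pow {q : ℕ} {x : ℚ} :
    IsAway q x ↔ ∃ k : ℕ, ∃ m : ℤ, x * ((q ^ k : ℕ) : ℚ) = m := by
  constructor
  · rintro ⟨k, m, h⟩
    exact ⟨k, m, by push_cast; exact h⟩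
  · rintro ⟨k, m, h⟩
    exact ⟨k, m, by push_cast at h; exact h⟩

/-! ### the reduction map -/

/-- reduction of a rational number modulo `n` (meaningful when the denominator is prime to `n`). -/
noncomputable def redA (n : ℕ) (x : ℚ) : ZMod n := (x.num : ZMod n) * ((x.den : ZMod n))⁻¹

/-- characterisation: if `x * d = m` with `d` prime to `n`, then `redA n x * d = m`. -/
lemma redA_mul_natCast {n d : ℕ} (hd : Nat.Coprime d n) {x : ℚ} {m : ℤ}
    (h : x * (d : ℚ) = m) : redA n x * (d : ZMod n) = (m : ZMod n) := by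
  have hd0 : d ≠ 0 ∨ n = 1 := by
    rcases Nat.eq_zero_or_pos d with rfl | hpos
    · right; simpa using hd
    · left; exact hpos.ne'
  rcases hd0 with hd0 | rfl
  swap
  · exact Subsingleton.elim _ _
  have key : x.num * (d : ℤ) = m * (x.den : ℤ) := by
    have h2 : x * (x.den : ℚ) = (x.num : ℚ) := Rat.mul_den_eq_num x
    have : (x.num : ℚ) * (d : ℚ) = (m : ℚ) * (x.den : ℚ) := by
      calc (x.num : ℚ) * (d : ℚ) = x * (x.den : ℚ) * (d : ℚ) := by rw [h2]
        _ = (x * (d : ℚ)) * (x.den : ℚ) := by ring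
        _ = (m : ℚ) * (x.den : ℚ) := by rw [h]
    exact_mod_cast this
  have hdvd : (x.den : ℤ) ∣ (d : ℤ) := by
    have hcop : IsCoprime (x.den : ℤ) x.num := by
      have := x.reduced
      rw [Int.isCoprime_iff_gcd_eq_one, Int.gcd_comm]
      simpa [Int.gcd, Int.natAbs_natCast] using this
    have h1 : (x.den : ℤ) ∣ x.num * (d : ℤ) := ⟨m, by rw [key]; ring⟩
    exact hcop.dvd_of_dvd_mul_left h1
  have hdenn : Nat.Coprime x.den n := by
    have : x.den ∣ d := by exact_mod_cast hdvd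
    exact Nat.Coprime.coprime_dvd_left this hd
  have hu1 : IsUnit ((x.den : ℕ) : ZMod n) := (ZMod.isUnit_iff_coprime _ _).2 hdenn
  have keyZ : (x.num : ZMod n) * (d : ZMod n) = (m : ZMod n) * (x.den : ZMod n) := by
    have := congrArg (fun z : ℤ => (z : ZMod n)) key
    simpa using this
  have e1 : ((x.den : ℕ) : ZMod n) * ((x.den : ZMod n))⁻¹ = 1 := ZMod.mul_inv_of_unit _ hu1
  unfold redA
  calc (x.num : ZMod n) * ((x.den : ZMod n))⁻¹ * (d : ZMod n)
      = ((x.num : ZMod n) * (d : ZMod n)) * ((x.den : ZMod n))⁻¹ := by ring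
    _ = (m : ZMod n) * ((x.den : ZMod n) * ((x.den : ZMod n))⁻¹) := by rw [keyZ]; ring
    _ = (m : ZMod n) := by rw [e1, mul_one]

/-- uniqueness form. -/
lemma redA_eq_of_mul_natCast {n d : ℕ} (hd : Nat.Coprime d n) {x : ℚ} {m : ℤ}
    (h : x * (d : ℚ) = m) {z : ZMod n} (hz : z * (d : ZMod n) = (m : ZMod n)) : redA n x = z := by
  have hu : IsUnit ((d : ℕ) : ZMod n) := (ZMod.isUnit_iff_coprime _ _).2 hd
  have := redA_mul_natCast hd h
  exact hu.mul_right_cancel (this.trans hz.symm)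

section ring

variable {q n : ℕ} (hqn : Nat.Coprime q n)

include hqn

lemma coprime_pow_left (k : ℕ) : Nat.Coprime (q ^ k) n := Nat.Coprime.pow_left k hqn

lemma redA_intCast (m : ℤ) : redA n (m : ℚ) = (m : ZMod n) := by
  have := redA_mul_natCast (n := n) (d := 1) (by simp) (x := (m : ℚ)) (m := m) (by simp)
  simpa using this

lemma redA_natCast (m : ℕ) : redA n (m : ℚ) = (m : ZMod n) := by
  have := redA_intCast hqn (m : ℤ)
  simpa using this

lemma redA_zero : redA n (0 : ℚ) = 0 := by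
  have := redA_intCast hqn 0
  simpa using this

lemma redA_one : redA n (1 : ℚ) = 1 := by
  have := redA_intCast hqn 1
  simpa using this

lemma redA_add {x y : ℚ} (hx : IsAway q x) (hy : IsAway q y) :
    redA n (x + y) = redA n x + redA n y := by
  obtain ⟨k, m, h⟩ := isAway_iff_exists_pow.1 hx
  obtain ⟨l, m', h'⟩ := isAway_iff_exists_pow.1 hy
  have hk := coprime_pow_left hqn k
  have hl := coprime_pow_left hqn l
  have hkl : Nat.Coprime (q ^ k * q ^ l) n := Nat.Coprime.mul_left hk hl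
  have e : (x + y) * ((q ^ k * q ^ l : ℕ) : ℚ) = ((m * (q ^ l : ℕ) + m' * (q ^ k : ℕ) : ℤ) : ℚ) := by
    push_cast
    push_cast at h h'
    rw [← h, ← h']; ring
  apply redA_eq_of_mul_natCast hkl e
  have a1 := redA_mul_natCast hk h
  have a2 := redA_mul_natCast hl h'
  push_cast at a1 a2 ⊢
  rw [← a1, ← a2]; ring

lemma redA_mul {x y : ℚ} (hx : IsAway q x) (hy : IsAway q y) :
    redA n (x * y) = redA n x * redA n y := by
  obtain ⟨k, m, h⟩ := isAway_iff_exists_pow.1 hx
  obtain ⟨l, m', h'⟩ := isAway_iff_exists_pow.1 hy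
  have hk := coprime_pow_left hqn k
  have hl := coprime_pow_left hqn l
  have hkl : Nat.Coprime (q ^ k * q ^ l) n := Nat.Coprime.mul_left hk hl
  have e : (x * y) * ((q ^ k * q ^ l : ℕ) : ℚ) = ((m * m' : ℤ) : ℚ) := by
    push_cast
    push_cast at h h'
    rw [← h, ← h']; ring
  apply redA_eq_of_mul_natCast hkl e
  have a1 := redA_mul_natCast hk h
  have a2 := redA_mul_natCast hl h'
  push_cast at a1 a2 ⊢
  rw [← a1, ← a2]; ring

lemma redA_neg {x : ℚ} (hx : IsAway q x) : redA n (-x) = - redA n x := by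
  have h := redA_add hqn hx hx.neg
  rw [add_neg_cancel, redA_zero hqn] at h
  exact (neg_eq_of_add_eq_zero_right h.symm).symm

lemma redA_sub {x y : ℚ} (hx : IsAway q x) (hy : IsAway q y) :
    redA n (x - y) = redA n x - redA n y := by
  rw [sub_eq_add_neg, redA_add hqn hx hy.neg, redA_neg hqn hy, sub_eq_add_neg]

lemma redA_pow {x : ℚ} (hx : IsAway q x) (k : ℕ) : redA n (x ^ k) = redA n x ^ k := by
  induction k with
  | zero => simpa using redA_one hqn
  | succ k ih => rw [pow_succ, redA_mul hqn (isAway_pow hx k) hx, ih, pow_succ]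

/-- **kernel of the reduction**: `redA n x = 0 ↔ x ∈ n ℤ[1/q]`. -/
lemma redA_eq_zero_iff {x : ℚ} (hx : IsAway q x) : redA n x = 0 ↔ IsCongZero q n x := by
  constructor
  · intro h0
    by_cases hn1 : n = 1
    · subst hn1
      exact ⟨x, hx, by simp⟩
    have hq : q ≠ 0 := by
      rintro rfl
      rw [Nat.coprime_zero_left] at hqn
      exact hn1 hqn
    obtain ⟨k, m, h⟩ := isAway_iff_exists_pow.1 hx
    have hk := coprime_pow_left hqn k
    have a1 := redA_mul_natCast hk h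
    rw [h0, zero_mul] at a1
    have hdvd : (n : ℤ) ∣ m := (ZMod.intCast_zmod_eq_zero_iff_dvd m n).1 a1.symm
    obtain ⟨m', rfl⟩ := hdvd
    have hq0 : ((q ^ k : ℕ) : ℚ) ≠ 0 := by
      have : q ^ k ≠ 0 := pow_ne_zero k hq
      exact_mod_cast this
    refine ⟨(m' : ℚ) / ((q ^ k : ℕ) : ℚ), ?_, ?_⟩
    · refine ⟨k, m', ?_⟩
      push_cast at hq0 ⊢
      field_simp
    · have : x = (((n : ℤ) * m' : ℤ) : ℚ) / ((q ^ k : ℕ) : ℚ) := by
        rw [← h]; field_simp
      rw [this]; push_cast; ring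
  · rintro ⟨r, hr, rfl⟩
    rw [redA_mul hqn (isAway_natCast q n) hr, redA_natCast hqn, ZMod.natCast_self, zero_mul]

lemma isCongZero_int_iff (z : ℤ) : IsCongZero q n (z : ℚ) ↔ (n : ℤ) ∣ z := by
  rw [← redA_eq_zero_iff hqn (IsAway.of_int z), redA_intCast hqn,
    ZMod.intCast_zmod_eq_zero_iff_dvd]

/-- `ℤ[1/q] / n ℤ[1/q] = ℤ/n`: every class contains a natural number `< n`. -/
lemma exists_nat_congr (hn : 0 < n) {x : ℚ} (hx : IsAway q x) :
    ∃ i : ℕ, i < n ∧ IsCongZero q n (x - (i : ℚ)) := by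
  have : NeZero n := ⟨hn.ne'⟩
  refine ⟨(redA n x).val, ZMod.val_lt _, ?_⟩
  rw [← redA_eq_zero_iff hqn (hx.sub (isAway_natCast q _)),
    redA_sub hqn hx (isAway_natCast q _), redA_natCast hqn, ZMod.natCast_zmod_val, sub_self]

/-- two `IsAway` rationals are congruent mod `n ℤ[1/q]` iff they have the same reduction. -/
lemma redA_eq_iff {x y : ℚ} (hx : IsAway q x) (hy : IsAway q y) :
    redA n x = redA n y ↔ IsCongZero q n (x - y) := by
  rw [← redA_eq_zero_iff hqn (hx.sub hy), redA_sub hqn hx hy, sub_eq_zero]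

end ring

/-! ### `IsCongZero` closure -/

lemma isCongZero_zero (q M : ℕ) : IsCongZero q M 0 := ⟨0, IsAway.zero, by ring⟩

lemma isCongZero_isAway {q M : ℕ} {x : ℚ} (h : IsCongZero q M x) : IsAway q x := by
  obtain ⟨r, hr, rfl⟩ := h
  exact (isAway_natCast q M).mul hr

lemma isCongZero_add {q M : ℕ} {x y : ℚ} (hx : IsCongZero q M x) (hy : IsCongZero q M y) :
    IsCongZero q M (x + y) := by
  obtain ⟨r, hr, rfl⟩ := hx
  obtain ⟨s, hs, rfl⟩ := hy
  exact ⟨r + s, hr.add hs, by ring⟩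

lemma isCongZero_neg {q M : ℕ} {x : ℚ} (hx : IsCongZero q M x) : IsCongZero q M (-x) := by
  obtain ⟨r, hr, rfl⟩ := hx
  exact ⟨-r, hr.neg, by ring⟩

lemma isCongZero_sub {q M : ℕ} {x y : ℚ} (hx : IsCongZero q M x) (hy : IsCongZero q M y) :
    IsCongZero q M (x - y) := by
  rw [sub_eq_add_neg]; exact isCongZero_add hx (isCongZero_neg hy)

lemma isCongZero_mul_left {q M : ℕ} {x y : ℚ} (hx : IsAway q x) (hy : IsCongZero q M y) :
    IsCongZero q M (x * y) := by
  obtain ⟨s, hs, rfl⟩ := hy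
  exact ⟨x * s, hx.mul hs, by ring⟩

lemma isCongZero_mul_right {q M : ℕ} {x y : ℚ} (hx : IsCongZero q M x) (hy : IsAway q y) :
    IsCongZero q M (x * y) := by
  rw [mul_comm]; exact isCongZero_mul_left hy hx

lemma isCongZero_of_dvd {q M M' : ℕ} (hMM : M' ∣ M) {x : ℚ} (hx : IsCongZero q M x) :
    IsCongZero q M' x := by
  obtain ⟨r, hr, rfl⟩ := hx
  obtain ⟨e, rfl⟩ := hMM
  exact ⟨(e : ℚ) * r, (isAway_natCast q e).mul hr, by push_cast; ring⟩

/-- CRT for the ideals `m ℤ[1/q]`, `n ℤ[1/q]` with `gcd(m,n) = 1`. -/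
lemma isCongZero_mul_of_coprime {q m n : ℕ} (hmn : Nat.Coprime m n) {x : ℚ}
    (hm : IsCongZero q m x) (hn : IsCongZero q n x) : IsCongZero q (m * n) x := by
  obtain ⟨r, hr, hxr⟩ := hm
  obtain ⟨s, hs, hxs⟩ := hn
  have hcop : IsCoprime (m : ℤ) (n : ℤ) := by
    rw [Int.isCoprime_iff_gcd_eq_one, Int.gcd_natCast_natCast]; exact hmn
  obtain ⟨u, v, huv⟩ := hcop
  have huvQ : (u : ℚ) * m + (v : ℚ) * n = 1 := by exact_mod_cast huv
  refine ⟨(u : ℚ) * s + (v : ℚ) * r,
    ((IsAway.of_int u).mul hs).add ((IsAway.of_int v).mul hr), ?_⟩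
  have hr' : r = ((u : ℚ) * m + (v : ℚ) * n) * r := by rw [huvQ, one_mul]
  have e1 : (m : ℚ) * r = (n : ℚ) * s := by rw [← hxr, ← hxs]
  rw [hxr]
  push_cast
  calc (m : ℚ) * r = (m : ℚ) * (((u : ℚ) * m + (v : ℚ) * n) * r) := by rw [← hr']
    _ = (u : ℚ) * m * ((m : ℚ) * r) + (m : ℚ) * n * ((v : ℚ) * r) := by ring
    _ = (u : ℚ) * m * ((n : ℚ) * s) + (m : ℚ) * n * ((v : ℚ) * r) := by rw [e1]
    _ = (m : ℚ) * n * ((u : ℚ) * s + (v : ℚ) * r) := by ring

/-! ### matrices with entries in `ℤ[1/q]` -/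

/-- all four entries in `ℤ[1/q]`. -/
def AwayMat (q : ℕ) (g : SLQ) : Prop :=
  IsAway q (g 0 0) ∧ IsAway q (g 0 1) ∧ IsAway q (g 1 0) ∧ IsAway q (g 1 1)

lemma awayMat_one (q : ℕ) : AwayMat q 1 := by
  refine ⟨?_, ?_, ?_, ?_⟩
  · rw [one_00]; exact IsAway.one
  · rw [one_01]; exact IsAway.zero
  · rw [one_10]; exact IsAway.zero
  · rw [one_11]; exact IsAway.one

lemma awayMat_mul {q : ℕ} {g h : SLQ} (hg : AwayMat q g) (hh : AwayMat q h) :
    AwayMat q (g * h) := by
  obtain ⟨g00, g01, g10, g11⟩ := hg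
  obtain ⟨h00, h01, h10, h11⟩ := hh
  refine ⟨?_, ?_, ?_, ?_⟩
  · rw [mul_00]; exact (g00.mul h00).add (g01.mul h10)
  · rw [mul_01]; exact (g00.mul h01).add (g01.mul h11)
  · rw [mul_10]; exact (g10.mul h00).add (g11.mul h10)
  · rw [mul_11]; exact (g10.mul h01).add (g11.mul h11)

lemma awayMat_inv {q : ℕ} {g : SLQ} (hg : AwayMat q g) : AwayMat q g⁻¹ := by
  obtain ⟨g00, g01, g10, g11⟩ := hg
  refine ⟨?_, ?_, ?_, ?_⟩
  · rw [inv_00]; exact g11
  · rw [inv_01]; exact g01.neg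
  · rw [inv_10]; exact g10.neg
  · rw [inv_11]; exact g00

lemma awayMat_pow {q : ℕ} {g : SLQ} (hg : AwayMat q g) (k : ℕ) : AwayMat q (g ^ k) := by
  induction k with
  | zero => simpa using awayMat_one q
  | succ k ih => rw [pow_succ]; exact awayMat_mul ih hg

lemma awayMat_of_isPrincipal {q M : ℕ} {g : SLQ} (hg : IsPrincipal q M g) : AwayMat q g := by
  obtain ⟨h00, h01, h10, h11⟩ := hg
  refine ⟨?_, isCongZero_isAway h01, isCongZero_isAway h10, ?_⟩
  · have := (isCongZero_isAway h00).add (IsAway.one (q := q))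
    simpa using this
  · have := (isCongZero_isAway h11).add (IsAway.one (q := q))
    simpa using this

/-- entrywise reduction modulo `n`. -/
noncomputable def redMat (n : ℕ) (g : SLQ) : Matrix (Fin 2) (Fin 2) (ZMod n) :=
  !![redA n (g 0 0), redA n (g 0 1); redA n (g 1 0), redA n (g 1 1)]

lemma redMat_eq_iff (n : ℕ) (g : SLQ) (a b c d : ZMod n) :
    redMat n g = !![a, b; c, d] ↔
      redA n (g 0 0) = a ∧ redA n (g 0 1) = b ∧ redA n (g 1 0) = c ∧ redA n (g 1 1) = d := by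
  constructor
  · intro h
    refine ⟨?_, ?_, ?_, ?_⟩
    · simpa [redMat] using congrFun (congrFun h 0) 0
    · simpa [redMat] using congrFun (congrFun h 0) 1
    · simpa [redMat] using congrFun (congrFun h 1) 0
    · simpa [redMat] using congrFun (congrFun h 1) 1
  · rintro ⟨h1, h2, h3, h4⟩
    unfold redMat
    rw [h1, h2, h3, h4]

section mat

variable {q n : ℕ} (hqn : Nat.Coprime q n)

include hqn

lemma redMat_one : redMat n (1 : SLQ) = 1 := by
  rw [Matrix.one_fin_two, redMat_eq_iff, one_00, one_01, one_10, one_11]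
  exact ⟨redA_one hqn, redA_zero hqn, redA_zero hqn, redA_one hqn⟩

lemma redMat_mul {g h : SLQ} (hg : AwayMat q g) (hh : AwayMat q h) :
    redMat n (g * h) = redMat n g * redMat n h := by
  obtain ⟨g00, g01, g10, g11⟩ := hg
  obtain ⟨h00, h01, h10, h11⟩ := hh
  have e : redMat n g * redMat n h =
      !![redA n (g 0 0) * redA n (h 0 0) + redA n (g 0 1) * redA n (h 1 0),
         redA n (g 0 0) * redA n (h 0 1) + redA n (g 0 1) * redA n (h 1 1);
         redA n (g 1 0) * redA n (h 0 0) + redA n (g 1 1) * redA n (h 1 0),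
         redA n (g 1 0) * redA n (h 0 1) + redA n (g 1 1) * redA n (h 1 1)] := by
    unfold redMat
    rw [Matrix.mul_fin_two]
  rw [e, redMat_eq_iff, mul_00, mul_01, mul_10, mul_11]
  refine ⟨?_, ?_, ?_, ?_⟩
  · rw [redA_add hqn (g00.mul h00) (g01.mul h10), redA_mul hqn g00 h00, redA_mul hqn g01 h10]
  · rw [redA_add hqn (g00.mul h01) (g01.mul h11), redA_mul hqn g00 h01, redA_mul hqn g01 h11]
  · rw [redA_add hqn (g10.mul h00) (g11.mul h10), redA_mul hqn g10 h00, redA_mul hqn g11 h10]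
  · rw [redA_add hqn (g10.mul h01) (g11.mul h11), redA_mul hqn g10 h01, redA_mul hqn g11 h11]

lemma redMat_pow {g : SLQ} (hg : AwayMat q g) (k : ℕ) : redMat n (g ^ k) = redMat n g ^ k := by
  induction k with
  | zero => simpa using redMat_one hqn
  | succ k ih => rw [pow_succ, redMat_mul hqn (awayMat_pow hg k) hg, ih, pow_succ]

/-- `g ≡ 1 mod n ℤ[1/q]` iff the reduction of `g` is the identity. -/
lemma redMat_eq_one_iff {g : SLQ} (hg : AwayMat q g) : redMat n g = 1 ↔ IsPrincipal q n g := by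
  obtain ⟨g00, g01, g10, g11⟩ := hg
  rw [Matrix.one_fin_two, redMat_eq_iff]
  unfold IsPrincipal
  rw [← redA_eq_zero_iff hqn (g00.sub IsAway.one), ← redA_eq_zero_iff hqn g01,
    ← redA_eq_zero_iff hqn g10, ← redA_eq_zero_iff hqn (g11.sub IsAway.one),
    redA_sub hqn g00 IsAway.one, redA_sub hqn g11 IsAway.one, redA_one hqn, sub_eq_zero,
    sub_eq_zero]

/-- **diagonal mod `n` ⟹ `φ(n)`-th power is `≡ 1 mod n`** (the step `E^{φ(k⁴)} ∈ Γ(k⁴)` of (B3)). -/
theorem isPrincipal_pow_totient_of_diag {g : SLQ} (hg : AwayMat q g)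
    (h01 : IsCongZero q n (g 0 1)) (h10 : IsCongZero q n (g 1 0)) :
    IsPrincipal q n (g ^ Nat.totient n) := by
  rw [← redMat_eq_one_iff hqn (awayMat_pow hg _), redMat_pow hqn hg]
  obtain ⟨g00, g01, g10, g11⟩ := hg
  have b0 : redA n (g 0 1) = 0 := (redA_eq_zero_iff hqn g01).2 h01
  have c0 : redA n (g 1 0) = 0 := (redA_eq_zero_iff hqn g10).2 h10
  -- determinant
  have hdet : redA n (g 0 0) * redA n (g 1 1) = 1 := by
    have h := det_eq g
    have h2 : redA n (g 0 0 * g 1 1 - g 0 1 * g 1 0) = 1 := by rw [h, redA_one hqn]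
    rw [redA_sub hqn (g00.mul g11) (g01.mul g10), redA_mul hqn g00 g11, redA_mul hqn g01 g10,
      b0, zero_mul, sub_zero] at h2
    exact h2
  set a := redA n (g 0 0) with ha
  set d := redA n (g 1 1) with hd
  have hR : redMat n g = Matrix.diagonal ![a, d] := by
    have : (Matrix.diagonal ![a, d] : Matrix (Fin 2) (Fin 2) (ZMod n)) = !![a, 0; 0, d] := by
      ext i j
      fin_cases i <;> fin_cases j <;> simp
    rw [this, redMat_eq_iff]
    exact ⟨ha.symm, b0, c0, hd.symm⟩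
  have ua : a ^ Nat.totient n = 1 := by
    have h1 := ZMod.pow_totient (Units.mkOfMulEqOne a d hdet)
    have h2 : (((Units.mkOfMulEqOne a d hdet) ^ Nat.totient n : (ZMod n)ˣ) : ZMod n) = 1 := by
      rw [h1]; rfl
    rw [Units.val_pow_eq_pow_val, Units.val_mkOfMulEqOne] at h2
    exact h2
  have ud : d ^ Nat.totient n = 1 := by
    have hdet' : d * a = 1 := by rw [mul_comm]; exact hdet
    have h1 := ZMod.pow_totient (Units.mkOfMulEqOne d a hdet')
    have h2 : (((Units.mkOfMulEqOne d a hdet') ^ Nat.totient n : (ZMod n)ˣ) : ZMod n) = 1 := by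
      rw [h1]; rfl
    rw [Units.val_pow_eq_pow_val, Units.val_mkOfMulEqOne] at h2
    exact h2
  rw [hR, Matrix.diagonal_pow]
  have : (![a, d] ^ Nat.totient n : Fin 2 → ZMod n) = 1 := by
    ext i
    fin_cases i
    · simpa using ua
    · simpa using ud
  rw [this, Matrix.diagonal_one']

end mat

end Fermat.Agent.S41.AwayRed98
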