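/-
S41 / CSP support library (helper98): "a unit class exhausts `ℤ[1/q] / M` additively" — the last
clause of `CSP11.NTInput` (Step A3): if `u ∈ ℤ[1/q]` is invertible mod `M`, every `t ∈ ℤ[1/q]` is
`≡ i • u mod M ℤ[1/q]` for some natural number `i`.
-/
import Fermat.Agent.S41.AwayRed98.Basic

set_option autoImplicit false

namespace Fermat.Agent.S41.AwayRed98

open Fermat.Agent.S41.Amalgam95 Fermat.Agent.S41.Ihara95

/-- if `u v ≡ 1 mod M ℤ[1/q]` then every `t ∈ ℤ[1/q]` is `≡ i u` for some `i : ℕ` (with `i < M`). -/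
theorem exists_nat_mul_congr {q M : ℕ} (hqM : Nat.Coprime q M) (hM : 0 < M) {u v : ℚ}
    (hu : IsAway q u) (hv : IsAway q v) (huv : IsCongZero q M (u * v - 1)) {t : ℚ}
    (ht : IsAway q t) : ∃ i : ℕ, i < M ∧ IsCongZero q M (t - (i : ℚ) * u) := by
  have : NeZero M := ⟨hM.ne'⟩
  have h1 : redA M u * redA M v = 1 := by
    have h := (redA_eq_zero_iff hqM ((hu.mul hv).sub IsAway.one)).2 huv
    rw [redA_sub hqM (hu.mul hv) IsAway.one, redA_mul hqM hu hv, redA_one hqM, sub_eq_zero] at h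
    exact h
  refine ⟨(redA M t * redA M v).val, ZMod.val_lt _, ?_⟩
  rw [← redA_eq_zero_iff hqM (ht.sub ((isAway_natCast q _).mul hu)),
    redA_sub hqM ht ((isAway_natCast q _).mul hu), redA_mul hqM (isAway_natCast q _) hu,
    redA_natCast hqM, ZMod.natCast_zmod_val]
  calc redA M t - redA M t * redA M v * redA M u
      = redA M t * (1 - redA M u * redA M v) := by ring
    _ = 0 := by rw [h1, sub_self, mul_zero]

/-- the same in the literal shape of the last clause of `CSP11.NTInput` (with `M.Coprime q`). -/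
theorem forall_exists_nat_mul_congr {q M : ℕ} (hMq : Nat.Coprime M q) (hM : 0 < M) {u : ℚ}
    (hu : IsAway q u) (hinv : ∃ v : ℚ, IsAway q v ∧ IsCongZero q M (u * v - 1)) :
    ∀ t : ℚ, IsAway q t → ∃ i : ℕ, IsCongZero q M (t - (i : ℚ) * u) := by
  obtain ⟨v, hv, huv⟩ := hinv
  intro t ht
  obtain ⟨i, -, hi⟩ := exists_nat_mul_congr hMq.symm hM hu hv huv ht
  exact ⟨i, hi⟩

/-- an `IsAway` rational whose reduction mod `M` is a unit has an `IsAway` inverse mod `M`
(in fact a natural number). -/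
theorem exists_inv_of_isUnit_redA {q M : ℕ} (hqM : Nat.Coprime q M) (hM : 0 < M) {u : ℚ}
    (hu : IsAway q u) (hunit : IsUnit (redA M u)) :
    ∃ v : ℕ, IsCongZero q M (u * (v : ℚ) - 1) := by
  have : NeZero M := ⟨hM.ne'⟩
  obtain ⟨w, hw⟩ := hunit.exists_right_inv
  refine ⟨w.val, ?_⟩
  rw [← redA_eq_zero_iff hqM ((hu.mul (isAway_natCast q _)).sub IsAway.one),
    redA_sub hqM (hu.mul (isAway_natCast q _)) IsAway.one, redA_mul hqM hu (isAway_natCast q _),
    redA_natCast hqM, ZMod.natCast_zmod_val, redA_one hqM, hw, sub_self]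

/-- integers prime to `M` are invertible mod `M ℤ[1/q]`. -/
theorem exists_inv_of_int_coprime {q M : ℕ} (hqM : Nat.Coprime q M) (hM : 0 < M) {z : ℤ}
    (hz : IsCoprime z (M : ℤ)) : ∃ v : ℕ, IsCongZero q M ((z : ℚ) * (v : ℚ) - 1) := by
  apply exists_inv_of_isUnit_redA hqM hM (IsAway.of_int z)
  rw [redA_intCast hqM]
  obtain ⟨a, b, hab⟩ := hz
  refine IsUnit.of_mul_eq_one (a : ZMod M) ?_
  have := congrArg (fun x : ℤ => (x : ZMod M)) hab
  simp only [Int.cast_add, Int.cast_mul, Int.cast_natCast, ZMod.natCast_self, mul_zero, add_zero,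
    Int.cast_one] at this
  rw [mul_comm]; exact this

/-- a product of `IsAway` rationals is invertible mod `M` iff ... (one direction): if `u`, `u'` are
invertible mod `M ℤ[1/q]` so is `u u'`. -/
theorem exists_inv_mul {q M : ℕ} {u u' v v' : ℚ} (hu' : IsAway q u') (hv' : IsAway q v')
    (h : IsCongZero q M (u * v - 1)) (h' : IsCongZero q M (u' * v' - 1)) :
    IsCongZero q M ((u * u') * (v * v') - 1) := by
  have e : (u * u') * (v * v') - 1 = (u * v - 1) * (u' * v') + (u' * v' - 1) := by ring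
  rw [e]
  exact isCongZero_add (isCongZero_mul_right h (hu'.mul hv')) h'

end Fermat.Agent.S41.AwayRed98
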